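import Fermat.Agent.S17.H290.GaussDefs
import Fermat.Agent.Lib.RR.H259.Mult
import Fermat.Agent.Lib.RR.Adeles

/-!
# S17 / tower H / GAUSS — leaf PN: projective normality (helper277)

`H290.ProjNormalStatement E`: every element of `L(e m ∞)` is the value at `E.x` of a form of
degree `e`.

* `formSpace E e`                : the `K`-space of values at `E.x` of the forms of degree `e`;
* `formSpace_mul_le`             : `formSpace e * formSpace e' ≤ formSpace (e + e')`;
* `L_le_formSpace_one`           : `L(m∞) ≤ formSpace 1`  (`E.x_span`);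
* `projNormal_of_quadratic`      : PN for `E` from quadratic normality `L(m∞)² = L(2m∞)` alone
                                   (degrees `e ≥ 3` by the base-point-free pencil trick
                                   `Lib.RR.H259.L_mul_L_of_le`, which only needs `2g + 1 ≤ m`);
* `projNormal_of_le`             : PN for `E` if `4g ≤ m` (the case of the wall: `4g + 1 ≤ m`).
-/

set_option autoImplicit false

noncomputable section

namespace Fermat.Agent.S17.H277

open AlgebraicCurve MvPolynomial
open Fermat.Agent.Lib.RR Fermat.Agent.S17.HWall Fermat.Agent.S17.H290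

variable {K F : Type*} [Field K] [Field F] [Algebra K F] [FF1 K F]

/-- The values at `E.x` of the forms of degree `e`. -/
def formSpace (E : EmbData K F) (e : ℕ) : Submodule K F :=
  (homogeneousSubmodule (Fin (E.r + 1)) K e).map (aeval E.x).toLinearMap

theorem mem_formSpace {E : EmbData K F} {e : ℕ} {f : F} :
    f ∈ formSpace E e ↔
      ∃ G : MvPolynomial (Fin (E.r + 1)) K, G.IsHomogeneous e ∧ aeval E.x G = f := by
  unfold formSpace
  rw [Submodule.mem_map]
  constructor
  · rintro ⟨G, hG, rfl⟩
    exact ⟨G, (mem_homogeneousSubmodule e G).mp hG, rfl⟩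
  · rintro ⟨G, hG, rfl⟩
    exact ⟨G, (mem_homogeneousSubmodule e G).mpr hG, rfl⟩

theorem formSpace_mul_le (E : EmbData K F) (e e' : ℕ) :
    formSpace E e * formSpace E e' ≤ formSpace E (e + e') := by
  rw [Submodule.mul_le]
  intro a ha b hb
  obtain ⟨G, hG, rfl⟩ := mem_formSpace.mp ha
  obtain ⟨H, hH, rfl⟩ := mem_formSpace.mp hb
  exact mem_formSpace.mpr ⟨G * H, hG.mul hH, map_mul _ _ _⟩

theorem L_zero_le_formSpace (E : EmbData K F) :
    riemannRochSpace (0 : Divisor K F) ≤ formSpace E 0 := by
  rw [L_zero]
  rintro f ⟨c, rfl⟩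
  exact mem_formSpace.mpr ⟨C c, isHomogeneous_C _ c, by simp [Algebra.linearMap_apply]⟩

theorem L_le_formSpace_one (E : EmbData K F) :
    riemannRochSpace (E.m • prim E.vinf) ≤ formSpace E 1 := by
  rw [← E.x_span, Submodule.span_le]
  rintro f ⟨i, rfl⟩
  exact mem_formSpace.mpr ⟨X i, isHomogeneous_X K i, by simp⟩

/-- The inductive step: if `L(e m∞) ≤ formSpace e` and `L(e m∞) * L(m∞) = L((e+1) m∞)`, then
`L((e+1) m∞) ≤ formSpace (e+1)`. -/
theorem L_le_formSpace_succ (E : EmbData K F) (e : ℕ)
    (ih : riemannRochSpace ((e * E.m) • prim E.vinf) ≤ formSpace E e)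
    (hmul : riemannRochSpace ((e * E.m) • prim E.vinf) * riemannRochSpace (E.m • prim E.vinf)
      = riemannRochSpace ((e * E.m) • prim E.vinf + E.m • prim E.vinf)) :
    riemannRochSpace (((e + 1) * E.m) • prim E.vinf) ≤ formSpace E (e + 1) := by
  have h1 : ((e + 1) * E.m) • prim E.vinf = (e * E.m) • prim E.vinf + E.m • prim E.vinf := by
    rw [add_mul, one_mul, add_smul]
  rw [h1, ← hmul]
  exact (mul_le_mul' ih (L_le_formSpace_one E)).trans (formSpace_mul_le E e 1)

theorem degree_nsmul_prim (v : Place K F) (n : ℕ) :
    Divisor.degree (n • prim v) = (n : ℤ) := by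
  rw [map_nsmul, degree_prim v (deg_eq_one v)]
  simp

/-- **PN from quadratic normality.**  If `L(m∞) * L(m∞) = L(2 m∞)`, then every element of
`L(e m ∞)` is the value at `E.x` of a form of degree `e`, for every `e`. -/
theorem projNormal_of_quadratic [CharZero K] (E : EmbData K F)
    (h2 : riemannRochSpace (E.m • prim E.vinf) * riemannRochSpace (E.m • prim E.vinf)
      = riemannRochSpace (E.m • prim E.vinf + E.m • prim E.vinf)) :
    ProjNormalStatement E := by
  have hg : (genusFF K F : ℤ) = (genusR K F : ℤ) := by rw [genusFF_eq_genusR]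
  have hm : 2 * (genusR K F : ℤ) + 1 ≤ (E.m : ℤ) := by exact_mod_cast E.hm
  have key : ∀ e : ℕ, riemannRochSpace ((e * E.m) • prim E.vinf) ≤ formSpace E e := by
    intro e
    induction e with
    | zero =>
      rw [zero_mul, zero_smul]
      exact L_zero_le_formSpace E
    | succ e ih =>
      rcases Nat.lt_or_ge e 2 with he | he
      · interval_cases e
        · rw [zero_add, one_mul]
          exact L_le_formSpace_one E
        · refine L_le_formSpace_succ E 1 ih ?_
          rw [one_mul]
          exact h2
      · refine L_le_formSpace_succ E e ih ?_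
        refine H259.L_mul_L_of_le (K := K) (F := F) ?_ ?_
        · rw [degree_nsmul_prim, hg]
          omega
        · rw [degree_nsmul_prim, degree_nsmul_prim, hg]
          push_cast
          have he' : (2 : ℤ) ≤ (e : ℤ) := by exact_mod_cast he
          nlinarith
  intro e f hf
  exact mem_formSpace.mp (key e hf)

/-- **PN, the case of the wall.**  If `4g ≤ m`, then every element of `L(e m ∞)` is the value at
`E.x` of a form of degree `e`. -/
theorem projNormal_of_le [CharZero K] (E : EmbData K F) (h : 4 * genusR K F ≤ E.m) :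
    ProjNormalStatement E := by
  refine projNormal_of_quadratic E ?_
  have hg : (genusFF K F : ℤ) = (genusR K F : ℤ) := by rw [genusFF_eq_genusR]
  have h' : 4 * (genusFF K F : ℤ) ≤ (E.m : ℤ) := by rw [hg]; exact_mod_cast h
  exact H259.L_mul_L (K := K) (F := F) (by rw [degree_nsmul_prim]; exact h')
    (by rw [degree_nsmul_prim]; exact h')

end Fermat.Agent.S17.H277
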